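import Mathlib.RingTheory.Invariant.Basic
import Mathlib.RingTheory.IntegralClosure.IsIntegralClosure.Basic
import Mathlib.Algebra.Polynomial.Lifts

/-!
# (Q): abstract q-expansion principle

`L` a field with an action of a finite group `G`, `A0` a ring mapping to `L` whose image is
fixed by `G` and is "integrally closed in the fixed field", `𝒱` a subring of `L` and `lam : A0`
with the Gauss property `c ∈ 𝒱, lam * c ∈ A0 ⇒ c ∈ A0`.

If every conjugate `g • a` of an integral element `a` can be written `d • a` with `d` preserving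
`{x integral over A0, x ∈ lam 𝒱}`, then `a ∈ lam ^ e 𝒱` implies that `a / lam ^ e` is integral
over `A0`.
-/

namespace Fermat.Agent.S28.H86

open Polynomial

section QEP

variable {L : Type*} [Field L] {G : Type*} [Group G] [Fintype G] [MulSemiringAction G L]
  {A0 : Type*} [CommRing A0] [Algebra A0 L] [SMulCommClass G A0 L]

/-- Iterated Gauss property. -/
theorem mem_range_of_pow_mul_mem_range (V : Subring L) (lam : A0)
    (hlamV : algebraMap A0 L lam ∈ V)
    (hgauss : ∀ c : L, c ∈ V → algebraMap A0 L lam * c ∈ (algebraMap A0 L).range →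
      c ∈ (algebraMap A0 L).range)
    (n : ℕ) (c : L) (hc : c ∈ V)
    (h : (algebraMap A0 L lam) ^ n * c ∈ (algebraMap A0 L).range) :
    c ∈ (algebraMap A0 L).range := by
  induction n with
  | zero => simpa using h
  | succ n ih =>
    apply ih
    apply hgauss _ (V.mul_mem (V.pow_mem hlamV n) hc)
    rwa [← mul_assoc, ← pow_succ']

omit [Fintype G] in
theorem isIntegral_smul_of_isIntegral (g : G) {x : L} (hx : IsIntegral A0 x) :
    IsIntegral A0 (g • x) :=
  hx.map (MulSemiringAction.toAlgHom A0 L g)

/-- The characteristic polynomial of an integral element has coefficients in `A0`, if `A0` is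
integrally closed in the fixed field. -/
theorem charpoly_mem_lifts_of_isIntegral
    (hcl : ∀ x : L, (∀ g : G, g • x = x) → IsIntegral A0 x → x ∈ (algebraMap A0 L).range)
    {x : L} (hx : IsIntegral A0 x) :
    MulSemiringAction.charpoly G x ∈ Polynomial.lifts (algebraMap A0 L) := by
  classical
  rw [Polynomial.lifts_iff_coeff_lifts]
  intro k
  apply hcl
  · intro g
    exact MulSemiringAction.smul_coeff_charpoly x k g
  · -- integrality of the coefficient
    have h1 : MulSemiringAction.charpoly G x ∈
        Polynomial.lifts (algebraMap (integralClosure A0 L) L) := by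
      rw [Polynomial.lifts_iff_liftsRing, MulSemiringAction.charpoly_eq]
      refine Subring.prod_mem _ fun g _ => ?_
      refine Subring.sub_mem _ ?_ ?_
      · rw [← Polynomial.lifts_iff_liftsRing]
        exact Polynomial.X_mem_lifts _
      · rw [← Polynomial.lifts_iff_liftsRing]
        exact Polynomial.C_mem_lifts (algebraMap (integralClosure A0 L) L)
          ⟨g • x, isIntegral_smul_of_isIntegral g hx⟩
    rw [Polynomial.lifts_iff_coeff_lifts] at h1
    obtain ⟨y, hy⟩ := h1 k
    rw [← hy]
    exact y.2

/-- One step of the q-expansion principle: if all conjugates of the integral element `x` are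
divisible by `lam` in `V`, then `x / lam` is integral. -/
theorem isIntegral_div_of_forall_smul_mem
    (hcl : ∀ x : L, (∀ g : G, g • x = x) → IsIntegral A0 x → x ∈ (algebraMap A0 L).range)
    (V : Subring L) (lam : A0) (hlam : algebraMap A0 L lam ≠ 0)
    (hlamV : algebraMap A0 L lam ∈ V)
    (hgauss : ∀ c : L, c ∈ V → algebraMap A0 L lam * c ∈ (algebraMap A0 L).range →
      c ∈ (algebraMap A0 L).range)
    (x : L) (hx : IsIntegral A0 x)
    (hxV : ∀ g : G, ∃ w ∈ V, g • x = algebraMap A0 L lam * w) :
    IsIntegral A0 (x / algebraMap A0 L lam) := by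
  classical
  set Λ : L := algebraMap A0 L lam with hΛ
  set b : L := x / Λ with hb
  have hgΛ : ∀ g : G, g • Λ = Λ := fun g => smul_algebraMap g lam
  have hgb : ∀ g : G, g • x = Λ * (g • b) := by
    intro g
    rw [hb, smul_div₀', hgΛ, mul_div_cancel₀ _ hlam]
  have hbV : ∀ g : G, g • b ∈ V := by
    intro g
    obtain ⟨w, hw, hgw⟩ := hxV g
    have : g • b = w := by
      have h1 := hgb g
      rw [hgw] at h1
      exact (mul_left_cancel₀ hlam h1).symm
    rw [this]; exact hw
  set F := MulSemiringAction.charpoly G b with hF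
  set F₁ := MulSemiringAction.charpoly G x with hF₁
  have hF₁lifts : F₁ ∈ Polynomial.lifts (algebraMap A0 L) :=
    charpoly_mem_lifts_of_isIntegral hcl hx
  have hFV : F ∈ Polynomial.lifts V.subtype := by
    rw [Polynomial.lifts_iff_liftsRing, hF, MulSemiringAction.charpoly_eq]
    refine Subring.prod_mem _ fun g _ => ?_
    refine Subring.sub_mem _ ?_ ?_
    · rw [← Polynomial.lifts_iff_liftsRing]
      exact Polynomial.X_mem_lifts _
    · rw [← Polynomial.lifts_iff_liftsRing]
      exact Polynomial.C_mem_lifts V.subtype ⟨g • b, hbV g⟩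
  have hcomp : F₁.comp (C Λ * X) = C (Λ ^ Fintype.card G) * F := by
    rw [hF₁, hF, MulSemiringAction.charpoly_eq, MulSemiringAction.charpoly_eq,
      Polynomial.prod_comp]
    have : ∀ g : G, (X - C (g • x)).comp (C Λ * X) = C Λ * (X - C (g • b)) := by
      intro g
      rw [Polynomial.sub_comp, Polynomial.X_comp, Polynomial.C_comp, hgb g, C_mul, mul_sub]
    simp_rw [this]
    rw [Finset.prod_mul_distrib, Finset.prod_const, Finset.card_univ, C_pow]
  have hcoeff : ∀ k : ℕ, F₁.coeff k * Λ ^ k = Λ ^ Fintype.card G * F.coeff k := by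
    intro k
    have := congrArg (fun q => q.coeff k) hcomp
    simp only [Polynomial.comp_C_mul_X_coeff, Polynomial.coeff_C_mul] at this
    exact this
  have hFlifts : F ∈ Polynomial.lifts (algebraMap A0 L) := by
    rw [Polynomial.lifts_iff_coeff_lifts]
    intro k
    have hkV : F.coeff k ∈ V := by
      rw [Polynomial.lifts_iff_coeff_lifts] at hFV
      obtain ⟨y, hy⟩ := hFV k
      rw [← hy]; exact y.2
    have hk1 : F₁.coeff k ∈ (algebraMap A0 L).range := by
      rw [Polynomial.lifts_iff_coeff_lifts] at hF₁lifts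
      exact hF₁lifts k
    have hk2 : Λ ^ Fintype.card G * F.coeff k ∈ (algebraMap A0 L).range := by
      rw [← hcoeff k]
      exact Subring.mul_mem _ hk1 (Subring.pow_mem _ (RingHom.mem_range_self _ lam) k)
    exact mem_range_of_pow_mul_mem_range V lam hlamV hgauss _ _ hkV hk2
  obtain ⟨P, hP, -, hPmonic⟩ := Polynomial.lifts_and_natDegree_eq_and_monic hFlifts
    (MulSemiringAction.monic_charpoly G b)
  refine ⟨P, hPmonic, ?_⟩
  rw [← Polynomial.eval_map, hP, hF]
  exact MulSemiringAction.eval_charpoly G b

/-- **(Q), abstract q-expansion principle.**  If every conjugate `g • a` is of the form `d • a`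
with `d` preserving `{x integral over A0} ∩ lam V`, then `a ∈ lam ^ e V` implies
`a / lam ^ e` integral over `A0`. -/
theorem isIntegral_div_pow_of_decomp
    (hcl : ∀ x : L, (∀ g : G, g • x = x) → IsIntegral A0 x → x ∈ (algebraMap A0 L).range)
    (V : Subring L) (lam : A0) (hlam : algebraMap A0 L lam ≠ 0)
    (hlamV : algebraMap A0 L lam ∈ V)
    (hgauss : ∀ c : L, c ∈ V → algebraMap A0 L lam * c ∈ (algebraMap A0 L).range →
      c ∈ (algebraMap A0 L).range)
    (a : L) (ha : IsIntegral A0 a)
    (hDH : ∀ g : G, ∃ d : G, d • a = g • a ∧ ∀ x : L, IsIntegral A0 x →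
      (∃ w ∈ V, x = algebraMap A0 L lam * w) → ∃ w ∈ V, d • x = algebraMap A0 L lam * w)
    (e : ℕ) (hae : ∃ v ∈ V, a = (algebraMap A0 L lam) ^ e * v) :
    IsIntegral A0 (a / (algebraMap A0 L lam) ^ e) := by
  set Λ : L := algebraMap A0 L lam with hΛ
  have hgΛ : ∀ g : G, g • Λ = Λ := fun g => smul_algebraMap g lam
  obtain ⟨v, hv, hav⟩ := hae
  have key : ∀ i : ℕ, i ≤ e → IsIntegral A0 (a / Λ ^ i) := by
    intro i
    induction i with
    | zero => intro _; simpa using ha
    | succ i ih =>
      intro hi
      have hxi : IsIntegral A0 (a / Λ ^ i) := ih (Nat.le_of_succ_le hi)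
      have hxV : ∃ w ∈ V, a / Λ ^ i = Λ * w := by
        refine ⟨Λ ^ (e - i - 1) * v, V.mul_mem (V.pow_mem hlamV _) hv, ?_⟩
        rw [hav, ← mul_assoc, ← pow_succ', eq_comm]
        have he : e = i + (e - i - 1 + 1) := by omega
        have hpow : Λ ^ e = Λ ^ i * Λ ^ (e - i - 1 + 1) := by
          conv_lhs => rw [he]
          rw [pow_add]
        rw [hpow, mul_assoc, mul_div_cancel_left₀ _ (pow_ne_zero i hlam)]
      have := isIntegral_div_of_forall_smul_mem hcl V lam hlam hlamV hgauss (a / Λ ^ i) hxi
        (fun g => by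
          obtain ⟨d, hda, hd⟩ := hDH g
          obtain ⟨w, hw, hdw⟩ := hd _ hxi hxV
          refine ⟨w, hw, ?_⟩
          rw [← hdw, smul_div₀', smul_div₀', smul_pow', smul_pow', hgΛ, hgΛ, hda])
      rwa [div_div, ← pow_succ] at this
  exact key e le_rfl

end QEP

end Fermat.Agent.S28.H86
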