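import Mathlib
import Fermat.Prelude.Def_GaloisRep_Flat
import Fermat.Agent.S28.H86.GaussGen

/-!
# (DVR): existence of the coefficient ring

For a prime `ℓ ∤ N` there is a subring `O ⊆ ℂ` which is a discrete valuation ring (in the form
`UnifData O res π`), contains `ζ_N = exp(2πi/N)` and `1/N`, has residue characteristic `ℓ`, and
satisfies `O ∩ ℚ = ℤ_(ℓ)`:  the localisation of the ring of integers of `ℚ(ζ_N) ⊆ ℂ` at a prime
above `ℓ`.
-/

set_option autoImplicit false
set_option linter.unusedSectionVars false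
set_option linter.style.haveILetI false

noncomputable section

namespace Fermat.Agent.S28.H86

open IsLocalRing

section DVR

variable {R : Type*} [CommRing R] [IsDomain R] [IsDiscreteValuationRing R]
  {E : Type*} [Field E] (f : R →+* E) (hf : Function.Injective f)

/-- The isomorphism of a ring with the range of an injective ring homomorphism. -/
def rangeEquiv : R ≃+* f.range := RingEquiv.ofLeftInverse (g := Function.invFun f)
  (Function.leftInverse_invFun hf)

theorem rangeEquiv_apply (x : R) : ((rangeEquiv f hf x : f.range) : E) = f x := rfl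

/-- The residue map on the range of an embedding of a DVR. -/
def rangeRes : f.range →+* ResidueField R := (residue R).comp (rangeEquiv f hf).symm.toRingHom

theorem rangeRes_apply (x : R) : rangeRes f hf (rangeEquiv f hf x) = residue R x := by
  simp [rangeRes]

theorem rangeRes_surjective : Function.Surjective (rangeRes f hf) := by
  intro y
  obtain ⟨x, rfl⟩ := residue_surjective y
  exact ⟨rangeEquiv f hf x, rangeRes_apply f hf x⟩

/-- A DVR embedded in a field gives uniformiser data on its image. -/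
theorem unifData_of_irreducible {ϖ : R} (hϖ : Irreducible ϖ) :
    UnifData f.range (rangeRes f hf) (rangeEquiv f hf ϖ) := by
  have hmax : maximalIdeal R = Ideal.span {ϖ} := hϖ.maximalIdeal_eq
  refine ⟨?_, ?_, ?_⟩
  · intro x
    obtain ⟨x, rfl⟩ := (rangeEquiv f hf).surjective x
    rw [rangeRes_apply, residue_eq_zero_iff, hmax, Ideal.mem_span_singleton']
    constructor
    · rintro ⟨y, hy⟩
      exact ⟨rangeEquiv f hf y, by rw [← map_mul, ← hy, mul_comm]⟩
    · rintro ⟨y, hy⟩
      obtain ⟨y, rfl⟩ := (rangeEquiv f hf).surjective y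
      rw [← map_mul] at hy
      exact ⟨y, by rw [(rangeEquiv f hf).injective hy, mul_comm]⟩
  · intro h0
    exact hϖ.ne_zero ((rangeEquiv f hf).injective (by rw [h0, map_zero]))
  · intro x hx
    obtain ⟨x, rfl⟩ := (rangeEquiv f hf).surjective x
    have hx0 : x ≠ 0 := fun h => hx (by rw [h, map_zero])
    obtain ⟨n, u, hu⟩ := IsDiscreteValuationRing.eq_unit_mul_pow_irreducible hx0 hϖ
    refine ⟨n, rangeEquiv f hf (u : R), ?_, ?_⟩
    · rw [← map_pow, ← map_mul, hu, mul_comm]
    · rw [rangeRes_apply]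
      intro h0
      rw [residue_eq_zero_iff] at h0
      exact (IsLocalRing.mem_maximalIdeal _).mp h0 u.isUnit

end DVR

section Cyclo

open NumberField

/-- The root of unity `ζ_N = exp(2πi/N)`. -/
def zetaC (N : ℕ) : ℂ := Complex.exp (2 * Real.pi * Complex.I / N)

theorem zetaC_pow (N : ℕ) [NeZero N] : zetaC N ^ N = 1 := by
  rw [zetaC, ← Complex.exp_nat_mul]
  have hN : (N : ℂ) ≠ 0 := Nat.cast_ne_zero.mpr (NeZero.ne N)
  rw [mul_div_cancel₀ _ hN]
  exact Complex.exp_two_pi_mul_I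

theorem isIntegral_zetaC (N : ℕ) [NeZero N] : IsIntegral ℤ (zetaC N) := by
  refine ⟨Polynomial.X ^ N - 1, Polynomial.monic_X_pow_sub_C 1 (NeZero.ne N), ?_⟩
  simp [zetaC_pow]

/-- The cyclotomic field `ℚ(ζ_N)` inside `ℂ`. -/
def cycloK (N : ℕ) : IntermediateField ℚ ℂ := IntermediateField.adjoin ℚ {zetaC N}

theorem zetaC_mem_cycloK (N : ℕ) : zetaC N ∈ cycloK N :=
  IntermediateField.subset_adjoin ℚ _ (Set.mem_singleton _)

instance cycloK_finiteDimensional (N : ℕ) [NeZero N] : FiniteDimensional ℚ (cycloK N) :=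
  IntermediateField.adjoin.finiteDimensional ((isIntegral_zetaC N).tower_top)

instance cycloK_numberField (N : ℕ) [NeZero N] : NumberField (cycloK N) where
  to_charZero := inferInstance
  to_finiteDimensional := inferInstance

variable (N ℓ : ℕ) [NeZero N] [hℓ : Fact ℓ.Prime]

/-- The embedding of the ring of integers of `ℚ(ζ_N)` into `ℂ`. -/
def ringOfIntegersToC : 𝓞 (cycloK N) →+* ℂ :=
  (cycloK N).val.toRingHom.comp (algebraMap (𝓞 (cycloK N)) (cycloK N))

theorem ringOfIntegersToC_injective : Function.Injective (ringOfIntegersToC N) := by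
  intro x y h
  have h1 : (algebraMap (𝓞 (cycloK N)) (cycloK N) x : ℂ) =
      (algebraMap (𝓞 (cycloK N)) (cycloK N) y : ℂ) := h
  exact RingOfIntegers.coe_injective (Subtype.ext h1)

theorem not_isUnit_natCast_prime : ¬ IsUnit ((ℓ : ℕ) : 𝓞 (cycloK N)) := by
  intro hu
  obtain ⟨y, hy⟩ := hu.exists_right_inv
  have hℓ0 : (ℓ : ℚ) ≠ 0 := Nat.cast_ne_zero.mpr hℓ.out.ne_zero
  have h1 : ((ℓ : ℕ) : cycloK N) * (algebraMap (𝓞 (cycloK N)) (cycloK N) y) = 1 := by
    have := congrArg (algebraMap (𝓞 (cycloK N)) (cycloK N)) hy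
    simpa using this
  have h2 : algebraMap (𝓞 (cycloK N)) (cycloK N) y = algebraMap ℚ (cycloK N) ((ℓ : ℚ)⁻¹) := by
    have h3 : ((ℓ : ℕ) : cycloK N) = algebraMap ℚ (cycloK N) (ℓ : ℚ) := by simp
    rw [h3] at h1
    have h4 : algebraMap ℚ (cycloK N) (ℓ : ℚ) ≠ 0 := by
      rw [Ne, map_eq_zero]; exact hℓ0
    rw [map_inv₀]
    exact eq_inv_of_mul_eq_one_right h1
  have h5 : IsIntegral ℤ (algebraMap ℚ (cycloK N) ((ℓ : ℚ)⁻¹)) := by
    rw [← h2]
    exact RingOfIntegers.isIntegral_coe y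
  have h6 : IsIntegral ℤ ((ℓ : ℚ)⁻¹) :=
    (isIntegral_algebraMap_iff (algebraMap ℚ (cycloK N)).injective).mp h5
  obtain ⟨n, hn⟩ := IsIntegrallyClosed.isIntegral_iff.mp h6
  have h7 : (n : ℚ) * ℓ = 1 := by
    have : (n : ℚ) = (ℓ : ℚ)⁻¹ := by simpa using hn
    rw [this, inv_mul_cancel₀ hℓ0]
  have h8 : n * (ℓ : ℤ) = 1 := by exact_mod_cast h7
  have h9 : IsUnit (ℓ : ℤ) := .of_mul_eq_one n (by rw [mul_comm]; exact h8)
  rw [Int.isUnit_iff] at h9
  have := hℓ.out.one_lt
  omega

/-- If `ℓ ∈ 𝔓` and `m` is an integer prime to `ℓ`, then `m ∉ 𝔓`. -/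
theorem intCast_notMem_of_isCoprime {S : Type*} [CommRing S] (P : Ideal S) (hP : P ≠ ⊤)
    (hℓP : ((ℓ : ℕ) : S) ∈ P) {m : ℤ} (hm : IsCoprime m (ℓ : ℤ)) : (m : S) ∉ P := by
  intro hmP
  obtain ⟨a, b, hab⟩ := hm
  apply hP
  rw [Ideal.eq_top_iff_one]
  have h1 : ((a * m + b * (ℓ : ℤ) : ℤ) : S) = 1 := by rw [hab]; simp
  rw [← h1]
  push_cast
  exact P.add_mem (P.mul_mem_left _ hmP) (P.mul_mem_left _ hℓP)

/-- **(DVR) Existence of the coefficient ring.**  For a prime `ℓ ∤ N` there is a subring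
`O ⊆ ℂ` with uniformiser data, residue characteristic `ℓ`, containing `ζ_N` and `1/N`, with
`O ∩ ℚ = ℤ_(ℓ)`. -/
theorem exists_coeffRing (hℓN : ¬ ℓ ∣ N) :
    ∃ (O : Subring ℂ) (k : Type) (_ : Field k) (res : O →+* k) (π : O),
      UnifData O res π ∧ Function.Surjective res ∧ CharP k ℓ ∧ zetaC N ∈ O ∧ (N : ℂ)⁻¹ ∈ O ∧
      res ((ℓ : ℕ) : O) = 0 ∧ ∀ x : ℚ, (x : ℂ) ∈ O ↔ x ∈ GaloisRep.ratLocalizedAt ℓ := by
  classical
  -- a maximal ideal over `ℓ`
  have hne : Ideal.span {((ℓ : ℕ) : 𝓞 (cycloK N))} ≠ ⊤ := by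
    rw [Ne, Ideal.span_singleton_eq_top]
    exact not_isUnit_natCast_prime N ℓ
  obtain ⟨P, hPmax, hPle⟩ := Ideal.exists_le_maximal _ hne
  have hℓP : ((ℓ : ℕ) : 𝓞 (cycloK N)) ∈ P := hPle (Ideal.mem_span_singleton_self _)
  haveI : P.IsPrime := hPmax.isPrime
  have hℓ0 : ((ℓ : ℕ) : 𝓞 (cycloK N)) ≠ 0 := by
    intro h0
    have := congrArg (ringOfIntegersToC N) h0
    simp only [map_natCast, map_zero, Nat.cast_eq_zero] at this
    exact hℓ.out.ne_zero this
  have hP0 : P ≠ ⊥ := by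
    intro h0
    rw [h0, Ideal.mem_bot] at hℓP
    exact hℓ0 hℓP
  -- the localisation, a DVR
  let R := Localization.AtPrime P
  haveI : IsDomain R := IsLocalization.isDomain_localization P.primeCompl_le_nonZeroDivisors
  haveI : IsDiscreteValuationRing R :=
    IsLocalization.AtPrime.isDiscreteValuationRing_of_dedekind_domain (𝓞 (cycloK N)) hP0 R
  -- the embedding into `ℂ`
  have hg : ∀ y : P.primeCompl, IsUnit (ringOfIntegersToC N y) := by
    intro y
    rw [isUnit_iff_ne_zero]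
    intro h0
    have hy0 : (y : 𝓞 (cycloK N)) = 0 :=
      ringOfIntegersToC_injective N (h0.trans (map_zero _).symm)
    exact y.2 (by rw [hy0]; exact P.zero_mem)
  let f : R →+* ℂ := IsLocalization.lift hg
  have hfalg : ∀ x : 𝓞 (cycloK N), f (algebraMap _ R x) = ringOfIntegersToC N x :=
    fun x => IsLocalization.lift_eq hg x
  have hf : Function.Injective f := by
    rw [IsLocalization.lift_injective_iff]
    intro x y
    constructor
    · intro h; rw [(IsLocalization.injective R P.primeCompl_le_nonZeroDivisors) h]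
    · intro h; rw [ringOfIntegersToC_injective N h]
  obtain ⟨ϖ, hϖ⟩ := IsDiscreteValuationRing.exists_irreducible R
  have hU := unifData_of_irreducible f hf hϖ
  -- residues of integers
  have hres_int : ∀ m : 𝓞 (cycloK N),
      rangeRes f hf (rangeEquiv f hf (algebraMap _ R m)) = 0 ↔ m ∈ P := by
    intro m
    rw [rangeRes_apply, residue_eq_zero_iff]
    exact IsLocalization.AtPrime.to_map_mem_maximal_iff R P m
  have hunit_int : ∀ m : ℤ, IsCoprime m (ℓ : ℤ) → ∃ r : R, f r = ((m : ℂ))⁻¹ := by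
    intro m hm
    have hmP : ((m : ℤ) : 𝓞 (cycloK N)) ∉ P :=
      intCast_notMem_of_isCoprime ℓ P hPmax.ne_top hℓP hm
    have hu : IsUnit (algebraMap (𝓞 (cycloK N)) R (m : 𝓞 (cycloK N))) :=
      IsLocalization.map_units R (⟨_, hmP⟩ : P.primeCompl)
    obtain ⟨r, hr⟩ := hu.exists_right_inv
    refine ⟨r, ?_⟩
    have h1 := congrArg f hr
    rw [map_mul, hfalg, map_one, map_intCast] at h1
    exact eq_inv_of_mul_eq_one_right h1
  refine ⟨f.range, ResidueField R, inferInstance, rangeRes f hf, rangeEquiv f hf ϖ, hU,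
    rangeRes_surjective f hf, ?_, ?_, ?_, ?_, ?_⟩
  · -- characteristic
    rw [CharP.charP_iff_prime_eq_zero hℓ.out]
    have h1 : residue R (algebraMap (𝓞 (cycloK N)) R ((ℓ : ℕ) : 𝓞 (cycloK N))) = 0 := by
      rw [residue_eq_zero_iff]
      exact (IsLocalization.AtPrime.to_map_mem_maximal_iff R P _).mpr hℓP
    simpa using h1
  · -- `ζ_N ∈ O`
    let z : 𝓞 (cycloK N) := ⟨⟨zetaC N, zetaC_mem_cycloK N⟩, by
      have := isIntegral_zetaC N
      exact (isIntegral_algebraMap_iff (cycloK N).val.toRingHom.injective).mp this⟩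
    exact ⟨algebraMap _ R z, by rw [hfalg]; rfl⟩
  · -- `1/N ∈ O`
    have hcop : IsCoprime (N : ℤ) (ℓ : ℤ) := by
      rw [Int.isCoprime_iff_gcd_eq_one, Int.gcd_natCast_natCast]
      exact (Nat.Coprime.symm ((Nat.Prime.coprime_iff_not_dvd hℓ.out).mpr hℓN))
    obtain ⟨r, hr⟩ := hunit_int (N : ℤ) hcop
    exact ⟨r, by rw [hr]; simp⟩
  · -- `res ℓ = 0`
    have h1 : ((ℓ : ℕ) : f.range) = rangeEquiv f hf (algebraMap _ R ((ℓ : ℕ) : 𝓞 (cycloK N))) := by
      simp
    rw [h1, hres_int]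
    exact hℓP
  · -- `O ∩ ℚ = ℤ_(ℓ)`
    intro x
    constructor
    · rintro ⟨r, hr⟩
      show x.den.Coprime ℓ
      by_contra hcop
      have hdvd : ℓ ∣ x.den := by
        by_contra hnd
        exact hcop (Nat.Coprime.symm ((Nat.Prime.coprime_iff_not_dvd hℓ.out).mpr hnd))
      -- `r * den = num` in `R`
      have h1 : r * algebraMap (𝓞 (cycloK N)) R ((x.den : ℕ) : 𝓞 (cycloK N)) =
          algebraMap (𝓞 (cycloK N)) R ((x.num : ℤ) : 𝓞 (cycloK N)) := by
        apply hf
        rw [map_mul, hfalg, hfalg, hr, map_natCast, map_intCast]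
        have := Rat.mul_den_eq_num x
        exact_mod_cast congrArg (fun q : ℚ => (q : ℂ)) this
      have h2 : ((x.den : ℕ) : 𝓞 (cycloK N)) ∈ P := by
        obtain ⟨c, hc⟩ := hdvd
        rw [hc]
        push_cast
        exact P.mul_mem_right _ hℓP
      have h3 : residue R (algebraMap (𝓞 (cycloK N)) R ((x.num : ℤ) : 𝓞 (cycloK N))) = 0 := by
        rw [← h1, map_mul]
        have : residue R (algebraMap (𝓞 (cycloK N)) R ((x.den : ℕ) : 𝓞 (cycloK N))) = 0 := by
          rw [residue_eq_zero_iff]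
          exact (IsLocalization.AtPrime.to_map_mem_maximal_iff R P _).mpr h2
        rw [this, mul_zero]
      have h4 : ((x.num : ℤ) : 𝓞 (cycloK N)) ∈ P := by
        rw [residue_eq_zero_iff] at h3
        exact (IsLocalization.AtPrime.to_map_mem_maximal_iff R P _).mp h3
      have hcop' : IsCoprime x.num (ℓ : ℤ) := by
        have hnd : IsCoprime x.num (x.den : ℤ) := by
          rw [Int.isCoprime_iff_gcd_eq_one]
          exact x.reduced
        obtain ⟨c, hc⟩ := hdvd
        rw [hc] at hnd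
        push_cast at hnd
        exact hnd.of_mul_right_left
      exact intCast_notMem_of_isCoprime ℓ P hPmax.ne_top hℓP hcop' h4
    · intro hx
      have hcop : IsCoprime (x.den : ℤ) (ℓ : ℤ) := by
        rw [Int.isCoprime_iff_gcd_eq_one, Int.gcd_natCast_natCast]
        exact hx
      obtain ⟨r, hr⟩ := hunit_int (x.den : ℤ) hcop
      refine ⟨algebraMap (𝓞 (cycloK N)) R ((x.num : ℤ) : 𝓞 (cycloK N)) * r, ?_⟩
      rw [map_mul, hfalg, hr, map_intCast]
      have h5 : (x : ℂ) = (x.num : ℂ) / (x.den : ℂ) := by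
        conv_lhs => rw [← Rat.num_div_den x]
        push_cast
        rfl
      rw [h5, div_eq_mul_inv]
      simp

end Cyclo

end Fermat.Agent.S28.H86
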