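import Fermat.Agent.S28.H86.DecompMove
import Fermat.Agent.S28.H86.AbstractQEP

/-!
# Abstract decomposition-group core for S28 (route #1105)

Combines (G1) [`DecompMove`], an abstract group lemma (hypothesis `hGrp`, supplied by the
`(Grp)` files) and (Q) [`AbstractQEP`] into the abstract q-expansion principle.
-/

namespace Fermat.Agent.S28.H86

open Polynomial
open scoped Pointwise

section action

variable (G A L : Type*) [Group G] [CommRing A] [Field L] [Algebra A L]
  [MulSemiringAction G L] [SMulCommClass G A L]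

/-- The action of `G` on the integral closure of `A` in `L`. -/
@[reducible] def integralClosureAction : MulSemiringAction G (integralClosure A L) where
  smul g x := ⟨g • x.1, isIntegral_smul_of_isIntegral g x.2⟩
  one_smul x := Subtype.ext (one_smul G x.1)
  mul_smul g h x := Subtype.ext (mul_smul g h x.1)
  smul_zero g := Subtype.ext (smul_zero g)
  smul_add g x y := Subtype.ext (smul_add g x.1 y.1)
  smul_one g := Subtype.ext (smul_one g)
  smul_mul g x y := Subtype.ext (smul_mul' g x.1 y.1)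

end action

section torsion

variable {G R : Type*} [Group G] [Finite G] [CommRing R] [MulSemiringAction G R]

/-- In a finite group, an element mapping an ideal into itself stabilises it. -/
theorem smul_ideal_eq_of_le (g : G) (Q : Ideal R) (h : g • Q ≤ Q) : g • Q = Q := by
  apply le_antisymm h
  have hpow : ∀ k : ℕ, g ^ k • Q ≤ Q := by
    intro k
    induction k with
    | zero => simp
    | succ k ih =>
      rw [pow_succ, mul_smul]
      exact le_trans (Ideal.pointwise_smul_le_pointwise_smul_iff.mpr h) ih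
  have hn : 0 < orderOf g := orderOf_pos g
  have h1 : g ^ (orderOf g - 1) • Q ≤ Q := hpow _
  have h2 : g • (g ^ (orderOf g - 1) • Q) = Q := by
    rw [← mul_smul, ← pow_succ', Nat.sub_add_cancel hn, pow_orderOf_eq_one, one_smul]
  calc Q = g • (g ^ (orderOf g - 1) • Q) := h2.symm
    _ ≤ g • Q := Ideal.pointwise_smul_le_pointwise_smul_iff.mpr h1

end torsion

section core

variable {L : Type*} [Field L] {G : Type*} [Group G] [Finite G] [MulSemiringAction G L]
  {A : Type*} [CommRing A] [Algebra A L] [SMulCommClass G A L]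

/-- The ideal of the integral closure consisting of the elements divisible by `Λ` in `V`. -/
def divIdeal (V : Subring L) (hVint : ∀ x : L, IsIntegral A x → x ∈ V) (Λ : L) :
    Ideal (integralClosure A L) where
  carrier := {b | ∃ w ∈ V, (b : L) = Λ * w}
  zero_mem' := ⟨0, V.zero_mem, by simp⟩
  add_mem' := by
    rintro a b ⟨w, hw, ha⟩ ⟨w', hw', hb⟩
    exact ⟨w + w', V.add_mem hw hw', by
      rw [Subalgebra.coe_add, ha, hb, mul_add]⟩
  smul_mem' := by
    rintro c b ⟨w, hw, hb⟩
    refine ⟨(c : L) * w, V.mul_mem (hVint _ c.2) hw, ?_⟩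
    rw [smul_eq_mul, Subalgebra.coe_mul, hb]
    ring

theorem mem_divIdeal (V : Subring L) (hVint : ∀ x : L, IsIntegral A x → x ∈ V) (Λ : L)
    (b : integralClosure A L) :
    b ∈ divIdeal V hVint Λ ↔ ∃ w ∈ V, (b : L) = Λ * w := Iff.rfl

/-- **Decomposition theorem.**  Under the hypotheses of (G1) for elements `u i` fixed by the
subgroups `Hp i`, and an abstract group lemma `hGrp`, every element of `Γ` is a product
`d * η` with `η ∈ HN` and `d` in the decomposition group of the prime `lam V ∩ B̃`. -/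
theorem exists_decomp
    (hinj : Function.Injective (algebraMap A L))
    (hcl : ∀ x : L, (∀ g : G, g • x = x) → IsIntegral A x → x ∈ (algebraMap A L).range)
    (V : Subring L) (hVint : ∀ x : L, IsIntegral A x → x ∈ V)
    (lam : A)
    (hprime : ∀ x y : L, x ∈ V → y ∈ V → (∃ w ∈ V, x * y = algebraMap A L lam * w) →
       (∃ w ∈ V, x = algebraMap A L lam * w) ∨ (∃ w ∈ V, y = algebraMap A L lam * w))
    (hone : ¬ ∃ w ∈ V, (1 : L) = algebraMap A L lam * w)
    (hgauss : ∀ c : L, c ∈ V → algebraMap A L lam * c ∈ (algebraMap A L).range →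
      c ∈ (algebraMap A L).range)
    [IsDomain (A ⧸ Ideal.span {lam})] [IsIntegrallyClosed (A ⧸ Ideal.span {lam})]
    {Γ : Type*} [Group Γ] (π : Γ →* G) (hπ : Function.Surjective π)
    (T : Γ) (hT : ∀ x ∈ V, π T • x ∈ V)
    {ι : Type*} (Hp : ι → Subgroup Γ) (HN : Subgroup Γ)
    (hGrp : ∀ D : Subgroup Γ, T ∈ D → (∀ i, ∃ d ∈ D, d ∉ Hp i) →
      ∀ g : Γ, ∃ d ∈ D, ∃ γ ∈ HN, g = d * γ)
    (u : ι → L) (hu_int : ∀ i, IsIntegral A (u i))
    (hu_fix : ∀ i, ∀ γ ∈ Hp i, π γ • u i = u i)
    (hu_ord : ∀ i, ∀ n : ℕ, 1 ≤ n → ∀ c : A,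
      ¬ ∃ w ∈ V, u i ^ n - algebraMap A L c = algebraMap A L lam * w) :
    ∀ g : Γ, ∃ d : Γ, (∃ η ∈ HN, g = d * η) ∧
      ∀ x : L, IsIntegral A x → (∃ w ∈ V, x = algebraMap A L lam * w) →
        ∃ w ∈ V, π d • x = algebraMap A L lam * w := by
  classical
  set Λ : L := algebraMap A L lam with hΛdef
  have hgΛ : ∀ g : G, g • Λ = Λ := fun g => smul_algebraMap g lam
  let act : MulSemiringAction G (integralClosure A L) := integralClosureAction G A L
  have hsmul_coe : ∀ (g : G) (b : integralClosure A L), ((g • b : integralClosure A L) : L)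
      = g • (b : L) := fun _ _ => rfl
  have : SMulCommClass G A (integralClosure A L) :=
    ⟨fun g a b => Subtype.ext (by
      change g • (a • (b : L)) = a • (g • (b : L))
      exact smul_comm g a (b : L))⟩
  have : Algebra.IsInvariant A (integralClosure A L) G :=
    ⟨fun b hb => by
      obtain ⟨a, ha⟩ := hcl (b : L) (fun g => by
        have := congrArg Subtype.val (hb g)
        exact this) b.2
      exact ⟨a, Subtype.ext ha⟩⟩
  set Q : Ideal (integralClosure A L) := divIdeal V hVint Λ with hQ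
  have hQprime : Q.IsPrime := by
    refine ⟨?_, ?_⟩
    · intro htop
      have h1 : (1 : integralClosure A L) ∈ Q := by rw [htop]; trivial
      obtain ⟨w, hw, h⟩ := h1
      exact hone ⟨w, hw, by simpa using h⟩
    · intro x y hxy
      obtain ⟨w, hw, h⟩ := hxy
      rcases hprime (x : L) (y : L) (hVint _ x.2) (hVint _ y.2)
        ⟨w, hw, by rw [← h]; rfl⟩ with h1 | h1
      · exact Or.inl h1
      · exact Or.inr h1
  have hover : Q.LiesOver (Ideal.span {lam}) := by
    refine ⟨?_⟩
    ext c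
    rw [Ideal.mem_span_singleton, Ideal.under_def, Ideal.mem_comap]
    constructor
    · rintro ⟨c', rfl⟩
      refine ⟨algebraMap A L c', hVint _ isIntegral_algebraMap, ?_⟩
      change algebraMap A L (lam * c') = _
      rw [map_mul]
    · rintro ⟨w, hw, h⟩
      have h' : algebraMap A L c = Λ * w := h
      obtain ⟨c', hc'⟩ := hgauss w hw (by rw [← h']; exact RingHom.mem_range_self _ c)
      refine ⟨c', hinj ?_⟩
      rw [h', map_mul, hc']
  -- the decomposition group, pulled back to `Γ`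
  set D : Subgroup Γ := (MulAction.stabilizer G Q).comap π with hD
  have hTD : T ∈ D := by
    rw [hD, Subgroup.mem_comap, MulAction.mem_stabilizer_iff]
    apply smul_ideal_eq_of_le
    intro y hy
    rw [Ideal.mem_pointwise_smul_iff_inv_smul_mem] at hy
    obtain ⟨w, hw, h⟩ := hy
    refine ⟨π T • w, hT w hw, ?_⟩
    have h2 : (y : L) = π T • (((π T)⁻¹ • y : integralClosure A L) : L) := by
      rw [hsmul_coe, smul_inv_smul]
    rw [h2, h, smul_mul', hgΛ]
  have hDp : ∀ i, ∃ d ∈ D, d ∉ Hp i := by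
    intro i
    obtain ⟨g, hgQ, hgu⟩ := exists_stabilizer_smul_sub_notMem G (Ideal.span {lam}) Q
      (⟨u i, hu_int i⟩ : integralClosure A L) (by
        intro n hn c hmem
        obtain ⟨w, hw, h⟩ := hmem
        exact hu_ord i n hn c ⟨w, hw, h⟩)
    obtain ⟨γ, rfl⟩ := hπ g
    refine ⟨γ, ?_, ?_⟩
    · rw [hD, Subgroup.mem_comap, MulAction.mem_stabilizer_iff]
      exact hgQ
    · intro hγ
      apply hgu
      have : (π γ • (⟨u i, hu_int i⟩ : integralClosure A L)) = ⟨u i, hu_int i⟩ :=
        Subtype.ext (hu_fix i γ hγ)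
      rw [this, sub_self]
      exact Q.zero_mem
  intro g
  obtain ⟨d, hd, η, hη, hg⟩ := hGrp D hTD hDp g
  refine ⟨d, ⟨η, hη, hg⟩, ?_⟩
  intro x hx hxdiv
  rw [hD, Subgroup.mem_comap, MulAction.mem_stabilizer_iff] at hd
  have hxQ : (⟨x, hx⟩ : integralClosure A L) ∈ Q := hxdiv
  have h2 : π d • (⟨x, hx⟩ : integralClosure A L) ∈ π d • Q :=
    Ideal.smul_mem_pointwise_smul _ _ _ hxQ
  rw [hd] at h2
  exact h2

/-- **Abstract q-expansion principle for a chart `AS`** (route #1105).

`A` is the "finite" chart ring (`O[j]`), on which the moving elements `u i` live; `AS` is any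
chart ring (`O[j]`, `O[1/j]`, `O[j, 1/j]`) such that every `AS`-integral element becomes
`A`-integral after multiplication by a `G`-invariant unit `s` of `V` (`s = j ^ n`). -/
theorem abstract_qep
    (hinj : Function.Injective (algebraMap A L))
    (hcl : ∀ x : L, (∀ g : G, g • x = x) → IsIntegral A x → x ∈ (algebraMap A L).range)
    (V : Subring L) (hVint : ∀ x : L, IsIntegral A x → x ∈ V)
    (lam : A) (hlam0 : algebraMap A L lam ≠ 0)
    (hprime : ∀ x y : L, x ∈ V → y ∈ V → (∃ w ∈ V, x * y = algebraMap A L lam * w) →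
       (∃ w ∈ V, x = algebraMap A L lam * w) ∨ (∃ w ∈ V, y = algebraMap A L lam * w))
    (hone : ¬ ∃ w ∈ V, (1 : L) = algebraMap A L lam * w)
    (hgauss : ∀ c : L, c ∈ V → algebraMap A L lam * c ∈ (algebraMap A L).range →
      c ∈ (algebraMap A L).range)
    [IsDomain (A ⧸ Ideal.span {lam})] [IsIntegrallyClosed (A ⧸ Ideal.span {lam})]
    {Γ : Type*} [Group Γ] (π : Γ →* G) (hπ : Function.Surjective π)
    (T : Γ) (hT : ∀ x ∈ V, π T • x ∈ V)
    {ι : Type*} (Hp : ι → Subgroup Γ) (HN : Subgroup Γ)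
    (hGrp : ∀ D : Subgroup Γ, T ∈ D → (∀ i, ∃ d ∈ D, d ∉ Hp i) →
      ∀ g : Γ, ∃ d ∈ D, ∃ γ ∈ HN, g = d * γ)
    (u : ι → L) (hu_int : ∀ i, IsIntegral A (u i))
    (hu_fix : ∀ i, ∀ γ ∈ Hp i, π γ • u i = u i)
    (hu_ord : ∀ i, ∀ n : ℕ, 1 ≤ n → ∀ c : A,
      ¬ ∃ w ∈ V, u i ^ n - algebraMap A L c = algebraMap A L lam * w)
    {AS : Type*} [CommRing AS] [Algebra AS L] [SMulCommClass G AS L]
    (hclS : ∀ x : L, (∀ g : G, g • x = x) → IsIntegral AS x → x ∈ (algebraMap AS L).range)
    (lamS : AS) (hlamS : algebraMap AS L lamS = algebraMap A L lam)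
    (hgaussS : ∀ c : L, c ∈ V → algebraMap A L lam * c ∈ (algebraMap AS L).range →
      c ∈ (algebraMap AS L).range)
    (htransfer : ∀ x : L, IsIntegral AS x → ∃ s : L, s ≠ 0 ∧ (∀ g : G, g • s = s) ∧
      s ∈ V ∧ s⁻¹ ∈ V ∧ IsIntegral A (s * x))
    (a : L) (ha : IsIntegral AS a) (hfix : ∀ η ∈ HN, π η • a = a)
    (e : ℕ) (hae : ∃ v ∈ V, a = (algebraMap A L lam) ^ e * v) :
    IsIntegral AS (a / (algebraMap A L lam) ^ e) := by
  classical
  cases nonempty_fintype G
  have hΛV : algebraMap A L lam ∈ V := hVint _ isIntegral_algebraMap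
  have hdec := exists_decomp hinj hcl V hVint lam hprime hone hgauss π hπ T hT Hp HN hGrp u
    hu_int hu_fix hu_ord
  have key := isIntegral_div_pow_of_decomp (G := G) (A0 := AS) hclS V lamS
    (by rw [hlamS]; exact hlam0) (by rw [hlamS]; exact hΛV)
    (by rw [hlamS]; exact hgaussS) a ha ?_ e (by rw [hlamS]; exact hae)
  · rwa [hlamS] at key
  · intro g
    obtain ⟨γ, rfl⟩ := hπ g
    obtain ⟨d, ⟨η, hη, hγ⟩, hd⟩ := hdec γ
    refine ⟨π d, ?_, ?_⟩
    · rw [hγ, map_mul, mul_smul, hfix η hη]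
    · rintro x hx ⟨w, hw, hxw⟩
      rw [hlamS] at hxw ⊢
      obtain ⟨s, hs0, hsfix, hsV, hsV', hsx⟩ := htransfer x hx
      obtain ⟨w', hw', h⟩ := hd (s * x) hsx ⟨s * w, V.mul_mem hsV hw, by rw [hxw]; ring⟩
      refine ⟨s⁻¹ * w', V.mul_mem hsV' hw', ?_⟩
      rw [smul_mul', hsfix] at h
      have : π d • x = s⁻¹ * (s * π d • x) := by
        rw [← mul_assoc, inv_mul_cancel₀ hs0, one_mul]
      rw [this, h]
      ring

end core

end Fermat.Agent.S28.H86
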