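import Mathlib.RingTheory.Invariant.Galois
import Mathlib.FieldTheory.Normal.Basic
import Mathlib.RingTheory.IntegralClosure.IntegrallyClosed

/-!
# (G1): the decomposition group moves `u`

Abstract, Mathlib-only form of step (G) of the decomposition-group route for S28.

`A ⊆ B` commutative rings, `G` a finite group acting on `B` with invariants `A`, `Q` a prime
of `B` over `P`.  If no positive power of `u` is congruent mod `Q` to an element of `A`
(and `A ⧸ P` is integrally closed), then some element of the decomposition group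
`Stab_G(Q)` moves `u` modulo `Q`.
-/

namespace Fermat.Agent.S28.H86

open Polynomial
open scoped Pointwise

section

variable {A B : Type*} [CommRing A] [CommRing B] [Algebra A B]
  (G : Type*) [Group G] [Finite G] [MulSemiringAction G B] [SMulCommClass G A B]
  [Algebra.IsInvariant A B G]
  (P : Ideal A) (Q : Ideal B) [Q.IsPrime] [Q.LiesOver P]

/-- If every element of the decomposition group fixes `u` modulo `Q`, then some positive power
of `u` is congruent modulo `Q` to an element of `A` (here `A ⧸ P` is integrally closed). -/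
theorem exists_pow_sub_algebraMap_mem_of_stabilizer_fixes
    [IsDomain (A ⧸ P)] [IsIntegrallyClosed (A ⧸ P)] (u : B)
    (hfix : ∀ g : G, g • Q = Q → g • u - u ∈ Q) :
    ∃ n : ℕ, 1 ≤ n ∧ ∃ a : A, u ^ n - algebraMap A B a ∈ Q := by
  classical
  have hPprime : P.IsPrime := Ideal.over_def Q P ▸ Ideal.IsPrime.under A Q
  let K := FractionRing (A ⧸ P)
  let L := FractionRing (B ⧸ Q)
  let _ : Algebra K L := FractionRing.liftAlgebra (A ⧸ P) (FractionRing (B ⧸ Q))
  have hsurj := IsFractionRing.stabilizerHom_surjective G P Q K L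
  have hnormal : Normal K L := Ideal.IsFractionRing.normal G P Q K L
  have hint : Algebra.IsIntegral A B := Algebra.IsInvariant.isIntegral A B G
  -- the image of `u`
  set y : L := algebraMap (B ⧸ Q) L (Ideal.Quotient.mk Q u) with hy
  -- every automorphism fixes `y`
  have hσ : ∀ σ : Gal(L/K), σ y = y := by
    intro σ
    obtain ⟨g, rfl⟩ := hsurj σ
    rw [hy, IsFractionRing.stabilizerHom_apply_apply_mk]
    congr 1
    rw [Ideal.Quotient.eq]
    exact hfix g.1 g.2
  -- all roots of the minimal polynomial of `y` are `y`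
  have hyint : IsIntegral K y := (hnormal.isAlgebraic y).isIntegral
  set p := minpoly K y with hp
  have hsplit : (p.map (algebraMap K L)).Splits := hnormal.splits y
  have hroots : ∀ z ∈ (p.map (algebraMap K L)).roots, z = y := by
    intro z hz
    have hz0 : Polynomial.aeval z p = 0 := by
      have := (Polynomial.mem_roots'.mp hz).2
      rwa [Polynomial.IsRoot.def, Polynomial.eval_map_algebraMap] at this
    have hmin : minpoly K y = minpoly K z :=
      minpoly.eq_of_irreducible_of_monic (minpoly.irreducible hyint) hz0 (minpoly.monic hyint)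
    obtain ⟨σ, hσz⟩ := (Normal.minpoly_eq_iff_mem_orbit (E := L)).mp hmin.symm
    have hσz' : σ y = z := hσz
    rw [← hσz']
    exact hσ σ
  have hmonic : (p.map (algebraMap K L)).Monic := (minpoly.monic hyint).map _
  have hprod : p.map (algebraMap K L) = (X - C y) ^ p.natDegree := by
    have h1 := hsplit.eq_prod_roots
    rw [hmonic.leadingCoeff, map_one, one_mul] at h1
    have h2 : (p.map (algebraMap K L)).roots =
        Multiset.replicate (p.map (algebraMap K L)).roots.card y :=
      Multiset.eq_replicate.mpr ⟨rfl, hroots⟩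
    have h3 : (p.map (algebraMap K L)).roots.card = p.natDegree := by
      rw [← hsplit.natDegree_eq_card_roots, Polynomial.natDegree_map]
    rw [h3] at h2
    rw [h1, h2, Multiset.map_replicate, Multiset.prod_replicate]
  set n := p.natDegree with hn
  have hnpos : 1 ≤ n := minpoly.natDegree_pos hyint
  -- constant coefficient
  have hcoeff : algebraMap K L (p.coeff 0) = (-y) ^ n := by
    have := congrArg (fun q => q.coeff 0) hprod
    simp only [Polynomial.coeff_map] at this
    rw [this, Polynomial.coeff_zero_eq_eval_zero, Polynomial.eval_pow, Polynomial.eval_sub,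
      Polynomial.eval_X, Polynomial.eval_C, zero_sub]
  have hyn : y ^ n = algebraMap K L ((-1) ^ n * p.coeff 0) := by
    rw [map_mul, hcoeff, map_pow, map_neg, map_one, ← mul_pow, neg_one_mul, neg_neg]
  -- integrality
  have hyA : IsIntegral (A ⧸ P) y := by
    have h1 : IsIntegral A u := hint.isIntegral u
    have h2 : IsIntegral A (Ideal.Quotient.mk Q u) := h1.map (Ideal.Quotient.mkₐ A Q)
    have h3 : IsIntegral (A ⧸ P) (Ideal.Quotient.mk Q u) := by
      have := h2.tower_top (A := A ⧸ P)
      exact this
    exact h3.map (IsScalarTower.toAlgHom (A ⧸ P) (B ⧸ Q) L)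
  have hcA : IsIntegral (A ⧸ P) ((-1) ^ n * p.coeff 0 : K) := by
    have h1 : IsIntegral (A ⧸ P) (y ^ n) := hyA.pow n
    rw [hyn] at h1
    exact (isIntegral_algebraMap_iff (algebraMap K L).injective).mp h1
  obtain ⟨c, hc⟩ := IsIntegrallyClosed.isIntegral_iff.mp hcA
  obtain ⟨a, rfl⟩ := Ideal.Quotient.mk_surjective c
  refine ⟨n, hnpos, a, ?_⟩
  rw [← Ideal.Quotient.eq]
  apply IsFractionRing.injective (B ⧸ Q) L
  rw [map_pow, map_pow, ← hy, hyn, ← hc]
  rw [← IsScalarTower.algebraMap_apply (A ⧸ P) K L,
    IsScalarTower.algebraMap_apply (A ⧸ P) (B ⧸ Q) L]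
  congr 1

/-- **(G1)**: if no positive power of `u` is congruent modulo `Q` to an element of `A`, then
some element of the decomposition group of `Q` moves `u` modulo `Q`. -/
theorem exists_stabilizer_smul_sub_notMem
    [IsDomain (A ⧸ P)] [IsIntegrallyClosed (A ⧸ P)] (u : B)
    (hu : ∀ n : ℕ, 1 ≤ n → ∀ a : A, u ^ n - algebraMap A B a ∉ Q) :
    ∃ g : G, g • Q = Q ∧ g • u - u ∉ Q := by
  by_contra hcon
  push Not at hcon
  obtain ⟨n, hn, a, ha⟩ := exists_pow_sub_algebraMap_mem_of_stabilizer_fixes G P Q u hcon
  exact hu n hn a ha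

/-- Variant of **(G1)** with conclusion `g • u ≠ u`. -/
theorem exists_stabilizer_smul_ne
    [IsDomain (A ⧸ P)] [IsIntegrallyClosed (A ⧸ P)] (u : B)
    (hu : ∀ n : ℕ, 1 ≤ n → ∀ a : A, u ^ n - algebraMap A B a ∉ Q) :
    ∃ g : G, g • Q = Q ∧ g • u ≠ u := by
  obtain ⟨g, hg, hgu⟩ := exists_stabilizer_smul_sub_notMem G P Q u hu
  refine ⟨g, hg, fun h => hgu ?_⟩
  rw [h, sub_self]
  exact Q.zero_mem

end

end Fermat.Agent.S28.H86
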