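import Fermat.Agent.S28.H86.DecompCore
import Fermat.Agent.S28.H325.GroupLemma

/-!
# Abstract q-expansion principle, specialised to `SL(2,ℤ)` and `Γ₀(N)`

`abstract_qep` with `Γ = SL(2,ℤ)`, `T = ModularGroup.T`, `Hp = Γ₀(p)` (`p ∣ N` prime),
`HN = Γ₀(N)`; the group lemma is `Fermat.Agent.S28.H325.exists_mul_mem_Gamma0`.
-/

namespace Fermat.Agent.S28.H86

open scoped MatrixGroups
open CongruenceSubgroup

variable {L : Type*} [Field L] {G : Type*} [Group G] [Finite G] [MulSemiringAction G L]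
  {A : Type*} [CommRing A] [Algebra A L] [SMulCommClass G A L]

/-- **Abstract q-expansion principle for `Γ₀(N)`** (decomposition-group route). -/
theorem abstract_qep_Gamma0
    (hinj : Function.Injective (algebraMap A L))
    (hcl : ∀ x : L, (∀ g : G, g • x = x) → IsIntegral A x → x ∈ (algebraMap A L).range)
    (V : Subring L) (hVint : ∀ x : L, IsIntegral A x → x ∈ V)
    (lam : A) (hlam0 : algebraMap A L lam ≠ 0)
    (hprime : ∀ x y : L, x ∈ V → y ∈ V → (∃ w ∈ V, x * y = algebraMap A L lam * w) →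
       (∃ w ∈ V, x = algebraMap A L lam * w) ∨ (∃ w ∈ V, y = algebraMap A L lam * w))
    (hone : ¬ ∃ w ∈ V, (1 : L) = algebraMap A L lam * w)
    (hgauss : ∀ c : L, c ∈ V → algebraMap A L lam * c ∈ (algebraMap A L).range →
      c ∈ (algebraMap A L).range)
    [IsDomain (A ⧸ Ideal.span {lam})] [IsIntegrallyClosed (A ⧸ Ideal.span {lam})]
    (π : SL(2, ℤ) →* G) (hπ : Function.Surjective π)
    (hT : ∀ x ∈ V, π ModularGroup.T • x ∈ V)
    (N : ℕ) [NeZero N]
    (u : ℕ → L) (hu_int : ∀ p : ℕ, p.Prime → p ∣ N → IsIntegral A (u p))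
    (hu_fix : ∀ p : ℕ, p.Prime → p ∣ N → ∀ γ ∈ Gamma0 p, π γ • u p = u p)
    (hu_ord : ∀ p : ℕ, p.Prime → p ∣ N → ∀ n : ℕ, 1 ≤ n → ∀ c : A,
      ¬ ∃ w ∈ V, u p ^ n - algebraMap A L c = algebraMap A L lam * w)
    {AS : Type*} [CommRing AS] [Algebra AS L] [SMulCommClass G AS L]
    (hclS : ∀ x : L, (∀ g : G, g • x = x) → IsIntegral AS x → x ∈ (algebraMap AS L).range)
    (lamS : AS) (hlamS : algebraMap AS L lamS = algebraMap A L lam)
    (hgaussS : ∀ c : L, c ∈ V → algebraMap A L lam * c ∈ (algebraMap AS L).range →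
      c ∈ (algebraMap AS L).range)
    (htransfer : ∀ x : L, IsIntegral AS x → ∃ s : L, s ≠ 0 ∧ (∀ g : G, g • s = s) ∧
      s ∈ V ∧ s⁻¹ ∈ V ∧ IsIntegral A (s * x))
    (a : L) (ha : IsIntegral AS a) (hfix : ∀ η ∈ Gamma0 N, π η • a = a)
    (e : ℕ) (hae : ∃ v ∈ V, a = (algebraMap A L lam) ^ e * v) :
    IsIntegral AS (a / (algebraMap A L lam) ^ e) := by
  refine abstract_qep hinj hcl V hVint lam hlam0 hprime hone hgauss π hπ ModularGroup.T hT
    (ι := {p : ℕ // p.Prime ∧ p ∣ N}) (fun i => Gamma0 i.1) (Gamma0 N) ?_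
    (fun i => u i.1) (fun i => hu_int i.1 i.2.1 i.2.2) (fun i => hu_fix i.1 i.2.1 i.2.2)
    (fun i => hu_ord i.1 i.2.1 i.2.2) hclS lamS hlamS hgaussS htransfer a ha hfix e hae
  intro D hTD hD g
  exact Fermat.Agent.S28.H325.exists_mul_mem_Gamma0 N D hTD
    (fun p hp hpN => hD ⟨p, hp, hpN⟩) g

end Fermat.Agent.S28.H86
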