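import Mathlib
import Fermat.Agent.S28.H868.Interface
import Fermat.Agent.S28.H86.CoeffRing

/-!
# The Gauss valuation ring of `K((t))` for an abstract discrete valuation ring `O`, `K = Frac O`

Adapter from `GaussGen` (coefficient ring a subring of a field) to an abstract DVR `O` with
fraction field `K`: all the fields of helper868's `GaussData O K`, as standalone statements.
-/

set_option autoImplicit false
set_option linter.unusedSectionVars false
set_option linter.style.haveILetI false

noncomputable section

namespace Fermat.Agent.S28.H86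

open ModularCurve IsLocalRing

section Adapter

variable (O K : Type*) [CommRing O] [IsDomain O] [IsDiscreteValuationRing O]
  [Field K] [Algebra O K] [IsFractionRing O K]

/-- The image of `O` in `K`. -/
abbrev dvrRange : Subring K := (algebraMap O K).range

/-- `O ≃ image of O in K`. -/
def dvrEquiv : O ≃+* dvrRange O K := rangeEquiv (algebraMap O K) (IsFractionRing.injective O K)

theorem dvrEquiv_coe (x : O) : ((dvrEquiv O K x : dvrRange O K) : K) = algebraMap O K x := rfl

/-- The residue map on the image of `O` in `K`. -/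
def dvrRes : dvrRange O K →+* ResidueField O :=
  rangeRes (algebraMap O K) (IsFractionRing.injective O K)

theorem dvrRes_dvrEquiv (x : O) : dvrRes O K (dvrEquiv O K x) = residue O x :=
  rangeRes_apply _ _ x

variable {O} in
theorem dvr_unifData {lam : O} (hlam : Irreducible lam) :
    UnifData (dvrRange O K) (dvrRes O K) (dvrEquiv O K lam) :=
  unifData_of_irreducible (algebraMap O K) (IsFractionRing.injective O K) hlam

/-- The Gauss valuation ring of `K((t))` with respect to the DVR `O`. -/
def dvrV : Subring (LaurentSeries K) := gaussRing (dvrRange O K) (dvrRes O K)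

/-- Reduction modulo the maximal ideal on the Gauss valuation ring. -/
def dvrRed : dvrV O K →+* LaurentSeries (ResidueField O) := gaussRed (dvrRange O K) (dvrRes O K)

/-- transport of series `O((t)) → O'((t))` -/
def dvrT : LaurentSeries O →+* LaurentSeries (dvrRange O K) := coeffMap (dvrEquiv O K).toRingHom

/-- transport of series `O'((t)) → O((t))` -/
def dvrTinv : LaurentSeries (dvrRange O K) →+* LaurentSeries O :=
  coeffMap (dvrEquiv O K).symm.toRingHom

theorem dvrT_dvrTinv (a : LaurentSeries (dvrRange O K)) : dvrT O K (dvrTinv O K a) = a := by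
  ext n
  simp [dvrT, dvrTinv]

theorem dvrTinv_dvrT (a : LaurentSeries O) : dvrTinv O K (dvrT O K a) = a := by
  ext n
  simp [dvrT, dvrTinv]

theorem dvrT_injective : Function.Injective (dvrT O K) :=
  Function.LeftInverse.injective (dvrTinv_dvrT O K)

theorem inclL_dvrT (a : LaurentSeries O) :
    inclL (dvrRange O K) (dvrT O K a) = coeffMap (algebraMap O K) a := by
  ext n
  rfl

theorem redL_dvrT (a : LaurentSeries O) :
    redL (dvrRes O K) (dvrT O K a) = coeffMap (residue O) a := by
  ext n
  simp only [redL_coeff, coeffMap_coeff, dvrT]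
  exact dvrRes_dvrEquiv O K _

theorem piL_dvr (lam : O) :
    piL (dvrRange O K) (dvrEquiv O K lam) = HahnSeries.C (algebraMap O K lam) := rfl

/-! ### The fields of `GaussData` -/

theorem dvr_incl_mem (a : LaurentSeries O) : coeffMap (algebraMap O K) a ∈ dvrV O K := by
  rw [← inclL_dvrT]
  exact inclL_mem_gaussRing _ _

theorem dvr_red_incl (a : LaurentSeries O) :
    dvrRed O K ⟨coeffMap (algebraMap O K) a, dvr_incl_mem O K a⟩ = coeffMap (residue O) a := by
  have h : (⟨coeffMap (algebraMap O K) a, dvr_incl_mem O K a⟩ : dvrV O K) =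
      ⟨inclL (dvrRange O K) (dvrT O K a), inclL_mem_gaussRing _ _⟩ :=
    Subtype.ext (inclL_dvrT O K a).symm
  rw [h]
  exact (gaussRed_inclL _).trans (redL_dvrT O K a)

variable {O} in
theorem dvr_exists_eq_lam_mul {lam : O} (hlam : Irreducible lam) (x : dvrV O K)
    (hx : dvrRed O K x = 0) :
    ∃ y : dvrV O K,
      (x : LaurentSeries K) = HahnSeries.C (algebraMap O K lam) * (y : LaurentSeries K) :=
  (gaussRed_eq_zero_iff (dvr_unifData K hlam) x).mp hx

variable {O} in
theorem dvr_red_eq_zero_iff {lam : O} (hlam : Irreducible lam) (x : dvrV O K) :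
    dvrRed O K x = 0 ↔ ∃ y : dvrV O K,
      (x : LaurentSeries K) = HahnSeries.C (algebraMap O K lam) * (y : LaurentSeries K) :=
  gaussRed_eq_zero_iff (dvr_unifData K hlam) x

theorem dvr_mem_gaussFrac {x : LaurentSeries K}
    (hx : ∃ a b : LaurentSeries O, b ≠ 0 ∧
      x * coeffMap (algebraMap O K) b = coeffMap (algebraMap O K) a) :
    x ∈ gaussFrac (dvrRange O K) := by
  obtain ⟨a, b, hb, hab⟩ := hx
  refine ⟨dvrT O K a, dvrT O K b, ?_, ?_⟩
  · intro h0
    exact hb (dvrT_injective O K (h0.trans (map_zero _).symm))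
  · rw [inclL_dvrT, inclL_dvrT]
    exact hab

theorem dvr_dichotomy (x : LaurentSeries K)
    (hx : ∃ a b : LaurentSeries O, b ≠ 0 ∧
      x * coeffMap (algebraMap O K) b = coeffMap (algebraMap O K) a) :
    x ∈ dvrV O K ∨ ∃ y : dvrV O K, dvrRed O K y = 0 ∧ x * (y : LaurentSeries K) = 1 := by
  obtain ⟨lam, hlam⟩ := IsDiscreteValuationRing.exists_irreducible O
  exact mem_gaussRing_or_inv (dvr_unifData K hlam) (dvr_mem_gaussFrac O K hx)

theorem dvr_twist_mem (c : Oˣ) (x : LaurentSeries K) (hx : x ∈ dvrV O K) :
    twist (Units.map (algebraMap O K).toMonoidHom c) x ∈ dvrV O K := by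
  refine twist_mem_gaussRing (Units.map (dvrEquiv O K).toRingHom.toMonoidHom c)
    (twist (Units.map (algebraMap O K).toMonoidHom c)) ?_ hx
  intro φ n
  rw [twist_coeff]
  congr 1
  rw [← map_zpow, ← map_zpow]
  rfl

end Adapter

end Fermat.Agent.S28.H86
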